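import Fermat.Agent.S24.H25_Inputs

/-!
# S37 [NORM] (helper3), part A: the swap symmetry of level `N ℓ` (Atkin–Lehner at `ℓ`)

`F_N = K(j_d : d ∣ N) ⊆ K((q))`, `α = ` inclusion, `β = qExpand ℓ` (`y(q) ↦ y(q ^ ℓ)`), `ℓ` prime
to `N`.  Every algebraic relation between `α F_N` and `β F_N` remains true after exchanging `α`
and `β`:

* `h3_swap_AK` : `∑ aᵢ β(wᵢ) = 0 → ∑ β(aᵢ) wᵢ = 0` for `aᵢ, wᵢ ∈ K[j_d : d ∣ N]`;
* `h3_swap` : for a polynomial `H` over `F_N` and `y ∈ F_N`: `H(β y) = 0 → (β H)(y) = 0`.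

Proof: realise the series on the upper half plane (S24 `Real.rho`); the function realising
`∑ β(aᵢ) wᵢ` is the function realising `∑ aᵢ β(wᵢ)` composed with `z ↦ γ • (ℓ z)`,
`γ = (1 b; N ℓd₀) ∈ Γ₀(N)`, because `ℓ (γ • (ℓ z)) = γ' • z` with `γ' = (ℓ b; N d₀) ∈ Γ₀(N)`.
-/

set_option autoImplicit false

open UpperHalfPlane ModularCurve CongruenceSubgroup
open scoped MatrixGroups
open Fermat.Agent.S24.Real Fermat.Agent.S23

namespace Fermat.Agent.S37x.Norm.H3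

/-! ### The two matrices -/

/-- `γ = (1 b; N ℓ d₀)`. -/
def h3_gam (N ℓ : ℕ) (b d₀ : ℤ) (h : (ℓ : ℤ) * d₀ - N * b = 1) : SL(2, ℤ) :=
  ⟨!![1, b; (N : ℤ), (ℓ : ℤ) * d₀], by rw [Matrix.det_fin_two_of]; linarith⟩

/-- `γ' = (ℓ b; N d₀)`. -/
def h3_gam' (N ℓ : ℕ) (b d₀ : ℤ) (h : (ℓ : ℤ) * d₀ - N * b = 1) : SL(2, ℤ) :=
  ⟨!![(ℓ : ℤ), b; (N : ℤ), d₀], by rw [Matrix.det_fin_two_of]; linarith⟩

lemma h3_gam_mem (N ℓ : ℕ) (b d₀ : ℤ) (h : (ℓ : ℤ) * d₀ - N * b = 1) :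
    h3_gam N ℓ b d₀ h ∈ Gamma0 N := by
  rw [Gamma0_mem]
  simp [h3_gam]

lemma h3_gam'_mem (N ℓ : ℕ) (b d₀ : ℤ) (h : (ℓ : ℤ) * d₀ - N * b = 1) :
    h3_gam' N ℓ b d₀ h ∈ Gamma0 N := by
  rw [Gamma0_mem]
  simp [h3_gam']

/-- `ℓ · (γ • (ℓ z)) = γ' • z`. -/
lemma h3_moebius (N ℓ : ℕ) [NeZero ℓ] (b d₀ : ℤ) (h : (ℓ : ℤ) * d₀ - N * b = 1) (z : ℍ) :
    scaleN ℓ (h3_gam N ℓ b d₀ h • scaleN ℓ z) = h3_gam' N ℓ b d₀ h • z := by
  apply UpperHalfPlane.ext
  rw [coe_scaleN, coe_specialLinearGroup_apply, coe_specialLinearGroup_apply, coe_scaleN]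
  simp only [h3_gam, h3_gam']
  have hℓ : (ℓ : ℂ) ≠ 0 := by exact_mod_cast NeZero.ne ℓ
  have hcd : (![(N : ℝ), (d₀ : ℝ)] : Fin 2 → ℝ) ≠ 0 := by
    intro h0
    have h1 := congrFun h0 0
    have h2 := congrFun h0 1
    simp only [Matrix.cons_val_zero, Matrix.cons_val_one, Pi.zero_apply] at h1 h2
    have h1' : (N : ℤ) = 0 := by exact_mod_cast h1
    have h2' : d₀ = 0 := by exact_mod_cast h2
    rw [h1', h2'] at h
    simp at h
  have hden : ((N : ℂ) * (z : ℂ) + (d₀ : ℂ)) ≠ 0 := by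
    have := UpperHalfPlane.linear_ne_zero (cd := ![(N : ℝ), (d₀ : ℝ)]) z hcd
    simpa using this
  have hden2 : ((N : ℂ) * ((ℓ : ℂ) * (z : ℂ)) + (ℓ : ℂ) * (d₀ : ℂ)) ≠ 0 := by
    have : ((N : ℂ) * ((ℓ : ℂ) * (z : ℂ)) + (ℓ : ℂ) * (d₀ : ℂ)) =
        ℓ * ((N : ℂ) * (z : ℂ) + (d₀ : ℂ)) := by ring
    rw [this]
    exact mul_ne_zero hℓ hden
  simp
  field_simp

/-- Bézout: integers `b, d₀` with `ℓ d₀ - N b = 1`. -/
lemma h3_exists_bezout {N ℓ : ℕ} (hcop : Nat.Coprime ℓ N) :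
    ∃ b d₀ : ℤ, (ℓ : ℤ) * d₀ - N * b = 1 := by
  refine ⟨-Int.gcdB ℓ N, Int.gcdA ℓ N, ?_⟩
  have h := Int.gcd_eq_gcd_ab ℓ N
  have h1 : Int.gcd (ℓ : ℤ) (N : ℤ) = 1 := by
    rw [Int.gcd_natCast_natCast]
    exact hcop
  rw [h1] at h
  push_cast at h
  linarith

/-! ### Realisation of sums -/

lemma h3_isReal_sum {ι : Type*} (s : Finset ι) (h : ι → LaurentSeries ℂ) (f : ι → ℍ → ℂ)
    (hr : ∀ i ∈ s, IsReal (h i) (f i)) : IsReal (∑ i ∈ s, h i) (∑ i ∈ s, f i) := by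
  classical
  induction s using Finset.induction_on with
  | empty => simpa using IsReal.zero
  | insert a s ha ih =>
    rw [Finset.sum_insert ha, Finset.sum_insert ha]
    exact (hr a (Finset.mem_insert_self a s)).add
      (ih fun i hi => hr i (Finset.mem_insert_of_mem hi))

variable {K : Type*} [Field K] [Algebra ℚ K]

/-- **Swap, ring form.** For `aᵢ, wᵢ ∈ K[j_d : d ∣ N]` and `ℓ` prime to `N`:
`∑ aᵢ(q) wᵢ(q ^ ℓ) = 0` implies `∑ aᵢ(q ^ ℓ) wᵢ(q) = 0`. -/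
theorem h3_swap_AK (e : K →+* ℂ) (N ℓ : ℕ) [NeZero ℓ] (hcop : Nat.Coprime ℓ N)
    {ι : Type*} (s : Finset ι) (a w : ι → AK K N)
    (h : ∑ i ∈ s, (a i : LaurentSeries K) * qExpand K ℓ (w i : LaurentSeries K) = 0) :
    ∑ i ∈ s, qExpand K ℓ (a i : LaurentSeries K) * (w i : LaurentSeries K) = 0 := by
  obtain ⟨b, d₀, hbd⟩ := h3_exists_bezout hcop
  -- the two realisations
  have hr1 : IsReal (coeffMap e (∑ i ∈ s, (a i : LaurentSeries K) * qExpand K ℓ (w i)))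
      (∑ i ∈ s, fun z => rho e (a i) z * rho e (w i) (scaleN ℓ z)) := by
    rw [map_sum]
    refine h3_isReal_sum s _ _ (fun i _ => ?_)
    rw [map_mul, Fermat.Agent.S24.Real.coeffMap_qExpand]
    exact (isModReal_rho e (a i)).real.mul ((isModReal_rho e (w i)).real.scale ℓ)
  have hr2 : IsReal (coeffMap e (∑ i ∈ s, qExpand K ℓ (a i : LaurentSeries K) * (w i)))
      (∑ i ∈ s, fun z => rho e (a i) (scaleN ℓ z) * rho e (w i) z) := by
    rw [map_sum]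
    refine h3_isReal_sum s _ _ (fun i _ => ?_)
    rw [map_mul, Fermat.Agent.S24.Real.coeffMap_qExpand]
    exact ((isModReal_rho e (a i)).real.scale ℓ).mul (isModReal_rho e (w i)).real
  -- the first function vanishes
  have h1 : (∑ i ∈ s, fun z => rho e (a i) z * rho e (w i) (scaleN ℓ z)) = 0 := by
    rw [← hr1.eq_zero_iff, h, map_zero]
  -- hence the second one
  have h2 : (∑ i ∈ s, fun z => rho e (a i) (scaleN ℓ z) * rho e (w i) z) = 0 := by
    funext z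
    have h3 := congrFun h1 (h3_gam N ℓ b d₀ hbd • scaleN ℓ z)
    rw [Finset.sum_apply] at h3 ⊢
    rw [Pi.zero_apply] at h3 ⊢
    rw [← h3]
    refine Finset.sum_congr rfl (fun i _ => ?_)
    show rho e (a i) (scaleN ℓ z) * rho e (w i) z =
      rho e (a i) (h3_gam N ℓ b d₀ hbd • scaleN ℓ z) *
        rho e (w i) (scaleN ℓ (h3_gam N ℓ b d₀ hbd • scaleN ℓ z))
    rw [h3_moebius, rho_smul_of_mem_Gamma0 e (a i) (h3_gam_mem N ℓ b d₀ hbd),
      rho_smul_of_mem_Gamma0 e (w i) (h3_gam'_mem N ℓ b d₀ hbd)]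
  have h4 := hr2.eq_zero_iff.mpr h2
  exact coeffMap_injective K e (by rw [h4, map_zero])

/-! ### Common denominators -/

lemma h3_exists_denom (N : ℕ) (c : ℕ → LaurentSeries K) (hc : ∀ i, c i ∈ FK K N) (n : ℕ) :
    ∃ b : AK K N, (b : LaurentSeries K) ≠ 0 ∧ ∀ i < n, c i * (b : LaurentSeries K) ∈ AK K N := by
  induction n with
  | zero => exact ⟨1, by simp, fun i hi => absurd hi (Nat.not_lt_zero i)⟩
  | succ n ih =>
    obtain ⟨b', hb'0, hb'⟩ := ih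
    obtain ⟨a₀, ha₀, b₀, hb₀, hb₀0, hab⟩ := exists_div_of_mem_FK (hc n)
    refine ⟨b' * ⟨b₀, hb₀⟩, ?_, fun i hi => ?_⟩
    · rw [MulMemClass.coe_mul]
      exact mul_ne_zero hb'0 hb₀0
    · rw [MulMemClass.coe_mul]
      rcases Nat.lt_succ_iff_lt_or_eq.mp hi with h | h
      · have := (AK K N).mul_mem (hb' i h) hb₀
        rwa [mul_assoc] at this
      · subst h
        have := (AK K N).mul_mem (hab ▸ ha₀ : c i * b₀ ∈ AK K N) b'.2
        rwa [mul_assoc, mul_comm b₀ (b' : LaurentSeries K)] at this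

/-- **Swap, field form.** For a polynomial `H` over `F_N` and `y ∈ F_N`, `ℓ` prime to `N`:
if `y(q ^ ℓ)` is a root of `H`, then `y` is a root of the polynomial obtained from `H` by
applying `q ↦ q ^ ℓ` to the coefficients. -/
theorem h3_swap (e : K →+* ℂ) (N ℓ : ℕ) [NeZero ℓ] (hcop : Nat.Coprime ℓ N)
    (H : Polynomial (LaurentSeries K)) (hH : ∀ i, H.coeff i ∈ FK K N)
    (y : LaurentSeries K) (hy : y ∈ FK K N)
    (h : H.eval (qExpand K ℓ y) = 0) :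
    (H.map (qExpand K ℓ)).eval y = 0 := by
  set n := H.natDegree with hn
  obtain ⟨b, hb0, hb⟩ := h3_exists_denom N (fun i => H.coeff i) hH (n + 1)
  obtain ⟨u, hu, v, hv, hv0, huv⟩ := exists_div_of_mem_FK hy
  -- the families
  set a : ℕ → AK K N := fun i =>
    if hi : i < n + 1 then ⟨H.coeff i * (b : LaurentSeries K), hb i hi⟩ else 0 with ha
  set w : ℕ → AK K N := fun i => (⟨u, hu⟩ : AK K N) ^ i * (⟨v, hv⟩ : AK K N) ^ (n - i) with hw
  have ha_coe : ∀ i ∈ Finset.range (n + 1), ((a i : AK K N) : LaurentSeries K) =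
      H.coeff i * (b : LaurentSeries K) := by
    intro i hi
    rw [ha]
    simp only [dif_pos (Finset.mem_range.mp hi)]
  have hw_coe : ∀ i, ((w i : AK K N) : LaurentSeries K) = u ^ i * v ^ (n - i) := by
    intro i
    rw [hw]
    simp
  have hβv0 : qExpand K ℓ v ≠ 0 := (map_ne_zero (qExpand K ℓ)).mpr hv0
  have hβb0 : qExpand K ℓ (b : LaurentSeries K) ≠ 0 := (map_ne_zero (qExpand K ℓ)).mpr hb0
  -- the first relation
  have h1 : ∑ i ∈ Finset.range (n + 1), ((a i : AK K N) : LaurentSeries K) *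
      qExpand K ℓ ((w i : AK K N) : LaurentSeries K) = 0 := by
    have h2 : ∀ i ∈ Finset.range (n + 1), ((a i : AK K N) : LaurentSeries K) *
        qExpand K ℓ ((w i : AK K N) : LaurentSeries K) =
        ((b : LaurentSeries K) * qExpand K ℓ v ^ n) * (H.coeff i * qExpand K ℓ y ^ i) := by
      intro i hi
      have hin : i ≤ n := Nat.lt_succ_iff.mp (Finset.mem_range.mp hi)
      rw [ha_coe i hi, hw_coe, map_mul, map_pow, map_pow, ← huv, map_mul, mul_pow]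
      have : qExpand K ℓ v ^ n = qExpand K ℓ v ^ i * qExpand K ℓ v ^ (n - i) := by
        rw [← pow_add, Nat.add_sub_cancel' hin]
      rw [this]
      ring
    rw [Finset.sum_congr rfl h2, ← Finset.mul_sum, ← Polynomial.eval_eq_sum_range, h, mul_zero]
  have h3 := h3_swap_AK e N ℓ hcop (Finset.range (n + 1)) a w h1
  -- the second relation
  have h4 : ∀ i ∈ Finset.range (n + 1), qExpand K ℓ ((a i : AK K N) : LaurentSeries K) *
      ((w i : AK K N) : LaurentSeries K) =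
      (qExpand K ℓ (b : LaurentSeries K) * v ^ n) * ((H.map (qExpand K ℓ)).coeff i * y ^ i) := by
    intro i hi
    have hin : i ≤ n := Nat.lt_succ_iff.mp (Finset.mem_range.mp hi)
    rw [ha_coe i hi, hw_coe, map_mul, Polynomial.coeff_map, ← huv, mul_pow]
    have : v ^ n = v ^ i * v ^ (n - i) := by
      rw [← pow_add, Nat.add_sub_cancel' hin]
    rw [this]
    ring
  rw [Finset.sum_congr rfl h4, ← Finset.mul_sum] at h3
  have h5 : (H.map (qExpand K ℓ)).eval y =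
      ∑ i ∈ Finset.range (n + 1), (H.map (qExpand K ℓ)).coeff i * y ^ i := by
    rw [Polynomial.eval_eq_sum_range' (n := n + 1)]
    exact lt_of_le_of_lt (Polynomial.natDegree_map_le) (Nat.lt_succ_self _)
  rw [h5]
  exact (mul_eq_zero.mp h3).resolve_left (mul_ne_zero hβb0 (pow_ne_zero _ hv0))

end Fermat.Agent.S37x.Norm.H3
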