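import Mathlib
import Fermat.Agent.S28.Mod.H22_Charpoly

/-!
# S37 [NORM] (helper3), part D: the determinant of the multiplication by `s(t)` on `R((t))`
over `R((t ^ p))`

`φ = qExpand R p : R((q)) → R((t))`, `q ↦ t ^ p`; `mulMat p s` (S28) is the matrix of the
multiplication by `s` in the basis `1, t, …, t ^ (p - 1)`, with entries in `R((q))`.
`h3Dl p s := det (mulMat p s)` is the formal norm `∏_b s(ζ^b q^{1/p})`.

* `h3_mulMat_mul`, `h3_mulMat_one`, `h3_mulMat_qExpand` : `mulMat` is multiplicative and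
  `mulMat p (φ a) = a • 1`;
* `h3Dl_mul`, `h3Dl_one`, `h3Dl_qExpand : h3Dl p (φ a) = a ^ p`, `h3Dl_coeffMap` (base change);
* `h3_pow_char` : in characteristic `p`, `s ^ p = φ (Frob s)` (`Frob` = coefficientwise
  Frobenius);
* `h3Dl_char` : over a field of characteristic `p`, `h3Dl p s = Frob s`;
* `h3_coeff_zero_of_roots` : over a field, a monic `H` of degree `p + 1` over `k((q))` with
  `H(a) = 0` and `(φ H)(s) = 0`, `s ≠ 0` of order prime to `p`, has
  `(-1) ^ (p + 1) * H.coeff 0 = a * h3Dl p s`.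
-/

set_option autoImplicit false

open ModularCurve HahnSeries Polynomial
open Fermat.Agent.S28.Mod.Form

namespace Fermat.Agent.S37x.Norm.H3

noncomputable section

section Basic

variable {R : Type*} [CommRing R] (p : ℕ) [NeZero p]

/-- Characterisation of `mulMat p s` by the decomposition. -/
theorem h3_mulMat_eq_of (s : LaurentSeries R) (M : Matrix (Fin p) (Fin p) (LaurentSeries R))
    (h : ∀ j : Fin p, s * tt R (j : ℕ) = ∑ i : Fin p, tt R (i : ℕ) * qExpand R p (M i j)) :
    mulMat p s = M := by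
  refine Matrix.ext fun i j => ?_
  have h1 := mul_tt_eq p s j
  rw [h j] at h1
  set g : ℕ → LaurentSeries R := fun k =>
    if hk : k < p then mulMat p s ⟨k, hk⟩ j - M ⟨k, hk⟩ j else 0 with hg
  have h2 : ∑ k ∈ Finset.range p, tt R k * qExpand R p (g k) = 0 := by
    rw [Finset.sum_range]
    have h3 : ∀ k : Fin p, tt R (k : ℕ) * qExpand R p (g k) =
        tt R (k : ℕ) * qExpand R p (mulMat p s k j) - tt R (k : ℕ) * qExpand R p (M k j) := by
      intro k
      rw [hg]
      simp only [dif_pos k.2, Fin.eta, map_sub, mul_sub]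
    rw [Finset.sum_congr rfl (fun k _ => h3 k), Finset.sum_sub_distrib, ← h1, sub_self]
  have h4 := comp_unique p g h2 i i.2
  rw [hg] at h4
  simp only [dif_pos i.2, Fin.eta] at h4
  exact sub_eq_zero.mp h4

/-- `mulMat` is multiplicative. -/
theorem h3_mulMat_mul (s₁ s₂ : LaurentSeries R) :
    mulMat p (s₁ * s₂) = mulMat p s₁ * mulMat p s₂ := by
  refine h3_mulMat_eq_of p _ _ (fun j => ?_)
  rw [mul_assoc, mul_tt_eq p s₂ j, Finset.mul_sum]
  have h1 : ∀ k : Fin p, s₁ * (tt R (k : ℕ) * qExpand R p (mulMat p s₂ k j)) =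
      ∑ i : Fin p, tt R (i : ℕ) * qExpand R p (mulMat p s₁ i k * mulMat p s₂ k j) := by
    intro k
    rw [← mul_assoc, mul_tt_eq p s₁ k, Finset.sum_mul]
    refine Finset.sum_congr rfl (fun i _ => ?_)
    rw [map_mul]
    ring
  rw [Finset.sum_congr rfl (fun k _ => h1 k), Finset.sum_comm]
  refine Finset.sum_congr rfl (fun i _ => ?_)
  rw [Matrix.mul_apply, map_sum, Finset.mul_sum]

/-- `mulMat p (φ a)` is the scalar matrix `a`. -/
theorem h3_mulMat_qExpand (a : LaurentSeries R) :
    mulMat p (qExpand R p a) = a • (1 : Matrix (Fin p) (Fin p) (LaurentSeries R)) := by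
  classical
  refine h3_mulMat_eq_of p _ _ (fun j => ?_)
  rw [Finset.sum_eq_single j]
  · simp [mul_comm]
  · intro i _ hij
    simp [Matrix.one_apply_ne hij]
  · intro h
    exact absurd (Finset.mem_univ j) h

theorem h3_mulMat_one : mulMat p (1 : LaurentSeries R) = 1 := by
  have := h3_mulMat_qExpand p (1 : LaurentSeries R)
  rwa [map_one, one_smul] at this

theorem h3_mulMat_pow (s : LaurentSeries R) (n : ℕ) : mulMat p (s ^ n) = mulMat p s ^ n := by
  induction n with
  | zero => rw [pow_zero, pow_zero, h3_mulMat_one]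
  | succ n ih => rw [pow_succ, pow_succ, h3_mulMat_mul, ih]

/-- The formal norm of `s(t)` from `R((t))` to `R((t ^ p))`, read in `R((q))`. -/
def h3Dl (s : LaurentSeries R) : LaurentSeries R := (mulMat p s).det

theorem h3Dl_mul (s₁ s₂ : LaurentSeries R) : h3Dl p (s₁ * s₂) = h3Dl p s₁ * h3Dl p s₂ := by
  unfold h3Dl
  rw [h3_mulMat_mul, Matrix.det_mul]

theorem h3Dl_one : h3Dl p (1 : LaurentSeries R) = 1 := by
  unfold h3Dl
  rw [h3_mulMat_one, Matrix.det_one]

theorem h3Dl_pow (s : LaurentSeries R) (n : ℕ) : h3Dl p (s ^ n) = h3Dl p s ^ n := by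
  unfold h3Dl
  rw [h3_mulMat_pow, Matrix.det_pow]

theorem h3Dl_qExpand (a : LaurentSeries R) : h3Dl p (qExpand R p a) = a ^ p := by
  unfold h3Dl
  rw [h3_mulMat_qExpand, Matrix.det_smul, Matrix.det_one, mul_one, Fintype.card_fin]

theorem h3Dl_zero : h3Dl p (0 : LaurentSeries R) = 0 := by
  have := h3Dl_qExpand p (0 : LaurentSeries R)
  rwa [map_zero, zero_pow (NeZero.ne p)] at this

/-- Base change. -/
theorem h3Dl_coeffMap {R' : Type*} [CommRing R'] (f : R →+* R') (s : LaurentSeries R) :
    h3Dl p (coeffMap f s) = coeffMap f (h3Dl p s) := by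
  unfold h3Dl
  rw [mulMat_coeffMap, RingHom.map_det]
  rfl

/-- `det = (-1) ^ p * chi(0)`. -/
theorem h3Dl_eq_coeff (s : LaurentSeries R) :
    h3Dl p s = (-1) ^ p * (chi p s).coeff 0 := by
  unfold h3Dl chi
  rw [Matrix.det_eq_sign_charpoly_coeff, Fintype.card_fin]

end Basic

section CharP

variable {R : Type*} [CommRing R] (p : ℕ) [hp : Fact p.Prime] [CharP R p]

/-- Frobenius on power series, coefficientwise. -/
theorem h3_ofPowerSeries_pow_char (P : PowerSeries R) :
    (HahnSeries.ofPowerSeries ℤ R P) ^ p =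
      qExpand R p (coeffMap (frobenius R p) (HahnSeries.ofPowerSeries ℤ R P)) := by
  rw [← map_pow, ← MvPowerSeries.map_frobenius_expand p hp.out.ne_zero]
  ext n
  have hp0 : (0 : ℤ) < p := by exact_mod_cast hp.out.pos
  rcases lt_or_ge n 0 with hn | hn
  · rw [ofPowerSeries_coeff_of_neg _ hn]
    by_cases hd : (p : ℤ) ∣ n
    · obtain ⟨k, rfl⟩ := hd
      have hk : k < 0 := by
        by_contra h
        rw [not_lt] at h
        nlinarith
      rw [qExpand_coeff_mul, coeffMap_coeff, ofPowerSeries_coeff_of_neg _ hk, map_zero]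
    · rw [qExpand_coeff_of_not_dvd p _ hd]
  · lift n to ℕ using hn
    rw [HahnSeries.ofPowerSeries_apply_coeff]
    change PowerSeries.coeff n (PowerSeries.map (frobenius R p)
      (PowerSeries.expand p hp.out.ne_zero P)) = _
    rw [PowerSeries.coeff_map, PowerSeries.coeff_expand]
    by_cases hd : p ∣ n
    · obtain ⟨k, rfl⟩ := hd
      rw [if_pos (dvd_mul_right p k), Nat.mul_div_cancel_left _ hp.out.pos]
      push_cast
      rw [qExpand_coeff_mul, coeffMap_coeff, HahnSeries.ofPowerSeries_apply_coeff]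
    · rw [if_neg hd, map_zero, qExpand_coeff_of_not_dvd]
      exact_mod_cast hd

/-- **Frobenius on Laurent series**: in characteristic `p`, `s(q) ^ p = (Frob s)(q ^ p)`. -/
theorem h3_pow_char (s : LaurentSeries R) :
    s ^ p = qExpand R p (coeffMap (frobenius R p) s) := by
  have e1 : (HahnSeries.single s.order (1 : R)) ^ p =
      HahnSeries.single ((p : ℤ) * s.order) (1 : R) := by
    rw [HahnSeries.single_pow, one_pow, nsmul_eq_mul]
  have e2 : qExpand R p (coeffMap (frobenius R p) (HahnSeries.single s.order (1 : R))) =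
      HahnSeries.single ((p : ℤ) * s.order) (1 : R) := by
    rw [coeffMap_single, qExpand_single, map_one]
  conv_lhs => rw [← LaurentSeries.single_order_mul_powerSeriesPart s]
  conv_rhs => rw [← LaurentSeries.single_order_mul_powerSeriesPart s]
  rw [mul_pow, map_mul, map_mul, h3_ofPowerSeries_pow_char, e1, e2]

end CharP

section CharPField

variable {k : Type*} [Field k] (p : ℕ) [hp : Fact p.Prime] [CharP k p]

/-- **The norm in characteristic `p`**: `det (mulMat p s) = Frob s`. -/
theorem h3Dl_char (s : LaurentSeries k) : h3Dl p s = coeffMap (frobenius k p) s := by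
  have : CharP (LaurentSeries k) p :=
    charP_of_injective_algebraMap (algebraMap k (LaurentSeries k)).injective p
  have h1 : h3Dl p s ^ p = (coeffMap (frobenius k p) s) ^ p := by
    rw [← h3Dl_pow, h3_pow_char p s, h3Dl_qExpand]
  exact frobenius_inj (LaurentSeries k) p h1

end CharPField

section Field

variable {k : Type*} [Field k] (p : ℕ) [NeZero p]

/-- **Identification of the constant coefficient.** -/
theorem h3_coeff_zero_of_roots (hp2 : 2 ≤ p) {s : LaurentSeries k} (hs : s ≠ 0)
    (hcop : Int.gcd s.order p = 1) {H : (LaurentSeries k)[X]} (hmonic : H.Monic)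
    (hdeg : H.natDegree = p + 1) (hHs : (H.map (qExpand k p)).eval s = 0)
    (a : LaurentSeries k) (hHa : H.eval a = 0) :
    (-1) ^ (p + 1) * H.coeff 0 = a * h3Dl p s := by
  rw [eq_mul_chi p hp2 hs hcop hmonic hdeg hHs a hHa, h3Dl_eq_coeff, Polynomial.mul_coeff_zero,
    Polynomial.coeff_sub, Polynomial.coeff_X_zero, Polynomial.coeff_C_zero, pow_succ]
  ring

end Field

end

end Fermat.Agent.S37x.Norm.H3
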