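import Fermat.Agent.S24.H25_Inputs
import Fermat.Agent.S28.Deg.H8_T1
import Fermat.Prelude.Def_ModularCurve_HeckeOperator

/-!
# S37 [NORM] (helper3), part B: `[F_{Nℓ} : α F_N] = ℓ + 1`

For a prime `ℓ` not dividing `N`, the degree of `modularFunctionFieldBar (N * ℓ)` over
`modularFunctionFieldBar N` along `heckeAlphaBar` (the inclusion) is `ℓ + 1`
(S24: `[F_M : ℚ̄(j)] = ψ(M)` for `M = N` and `M = N ℓ`, and the tower law).
-/

set_option autoImplicit false
set_option synthInstance.maxHeartbeats 400000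
set_option maxHeartbeats 1000000
set_option linter.style.haveILetI false

open ModularCurve IntermediateField AlgebraicCurve
open Fermat.Agent.S24.Real

namespace Fermat.Agent.S37x.Norm.H3

noncomputable section

/-- An embedding of the algebraic numbers into the complex numbers. -/
def h3_emb : AlgebraicClosure ℚ →+* ℂ :=
  haveI : Algebra.IsAlgebraic ℚ (AlgebraicClosure ℚ) := AlgebraicClosure.isAlgebraic ℚ
  (IsAlgClosed.lift (R := ℚ) (S := AlgebraicClosure ℚ) (M := ℂ)).toRingHom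

/-- `[F_N : ℚ̄(j)] = ψ(N)` as a relative degree inside `ℚ̄((q))`. -/
theorem h3_relfinrank_j (N : ℕ) [NeZero N] :
    relfinrank (IntermediateField.adjoin (AlgebraicClosure ℚ)
        {(coeffEmb (AlgebraicClosure ℚ) jq : LaurentSeries (AlgebraicClosure ℚ))})
      (modularFunctionFieldBar N) = dedekindPsi N := by
  have h1 := Fermat.Agent.S28.Deg.H8.finrank_adjoin_eq_relfinrank (AlgebraicClosure ℚ)
    (FK (AlgebraicClosure ℚ) N) (Fermat.Agent.S24.Final.jF (AlgebraicClosure ℚ) N)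
  rw [Fermat.Agent.S24.Final.coe_jF] at h1
  rw [← h1, Fermat.Agent.S24.Final.finrank_jF h3_emb N]
  exact Fermat.Agent.S24.Comb.card_X N

theorem h3_bar_le (N ℓ : ℕ) [NeZero N] [NeZero ℓ] :
    modularFunctionFieldBar N ≤ modularFunctionFieldBar (N * ℓ) := fun x hx =>
  (heckeAlphaBar (AlgebraicClosure ℚ) N ℓ ⟨x, hx⟩).2

theorem h3_adjoin_j_le (N : ℕ) [NeZero N] :
    IntermediateField.adjoin (AlgebraicClosure ℚ)
        {(coeffEmb (AlgebraicClosure ℚ) jq : LaurentSeries (AlgebraicClosure ℚ))} ≤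
      modularFunctionFieldBar N := by
  rw [IntermediateField.adjoin_le_iff]
  rintro x rfl
  rw [← Fermat.Agent.S24.Final.coe_jF (AlgebraicClosure ℚ) N]
  exact (Fermat.Agent.S24.Final.jF (AlgebraicClosure ℚ) N).2

/-- The relative degree of `F_{Nℓ}` over `F_N`. -/
theorem h3_relfinrank_level (N ℓ : ℕ) [NeZero N] [NeZero ℓ] (hℓ : ℓ.Prime) (hN : ¬ ℓ ∣ N) :
    relfinrank (modularFunctionFieldBar N) (modularFunctionFieldBar (N * ℓ)) = ℓ + 1 := by
  have h1 := relfinrank_mul_relfinrank (h3_adjoin_j_le N) (h3_bar_le N ℓ)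
  rw [h3_relfinrank_j N, h3_relfinrank_j (N * ℓ)] at h1
  have hcop : Nat.Coprime N ℓ := (Nat.Coprime.symm ((Nat.Prime.coprime_iff_not_dvd hℓ).mpr hN))
  have h2 : dedekindPsi ℓ = ℓ + 1 := by
    have := Fermat.Agent.S24.Comb.h16_dedekindPsi_prime_pow hℓ (k := 1) one_pos
    simpa using this
  rw [Fermat.Agent.S24.Comb.h16_dedekindPsi_mul hcop, h2] at h1
  exact Nat.eq_of_mul_eq_mul_left (Fermat.Agent.S24.Comb.h16_dedekindPsi_pos (NeZero.ne N)) h1

/-- **(B)** `[F_{Nℓ} : F_N] = ℓ + 1` along `heckeAlphaBar`. -/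
theorem h3_finrank_alpha (N ℓ : ℕ) [NeZero N] [NeZero ℓ] (hℓ : ℓ.Prime) (hN : ¬ ℓ ∣ N) :
    finrankAlong (AlgebraicClosure ℚ) (heckeAlphaBar (AlgebraicClosure ℚ) N ℓ) = ℓ + 1 := by
  rw [← h3_relfinrank_level N ℓ hℓ hN, relfinrank_eq_finrank_of_le (h3_bar_le N ℓ)]
  unfold finrankAlong
  letI := algebraAlong (heckeAlphaBar (AlgebraicClosure ℚ) N ℓ)
  refine LinearEquiv.finrank_eq
    { toFun := fun x => ⟨x.1, (mem_extendScalars (h3_bar_le N ℓ)).mpr x.2⟩
      invFun := fun x => ⟨x.1, (mem_extendScalars (h3_bar_le N ℓ)).mp x.2⟩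
      left_inv := fun x => rfl
      right_inv := fun x => rfl
      map_add' := fun x y => rfl
      map_smul' := fun c x => rfl }

end

end Fermat.Agent.S37x.Norm.H3
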