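import Fermat.Agent.S37x.Norm.H3_Swap
import Fermat.Agent.S37x.Norm.H3_Det
import Fermat.Agent.S37x.Norm.H3_Deg
import Fermat.Agent.S37x.Asm.DefsLeaves
import Fermat.Agent.S18x.Dict.H23_Dvr

/-!
# S37 [NORM] (helper3): the norm of `y(q ^ ℓ)` from level `N ℓ` down to level `N`

`F_N = modularFunctionFieldBar N`, `α = heckeAlphaBar` (inclusion), `β = heckeBetaBar`
(`q ↦ q ^ ℓ`), `ℓ` a prime not dividing `N`.

* `h3_norm_beta` : for every `y ∈ F_N`,
  `Norm_α (β y) = y(q ^ ℓ) * h3Dl ℓ y` in `ℚ̄((q))`, where `h3Dl ℓ y` is the determinant of the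
  multiplication by `y(t)` on `ℚ̄((t))` over `ℚ̄((t ^ ℓ))` (the formal product of the conjugates
  `y(ζ^b q^{1/ℓ})`);
* `stNorm` : the leaf `Asm.StNorm N ℓ A`: for an integral `y` the norm is integral and reduces
  to `ȳ(q ^ ℓ) * ȳ^φ`.
-/

set_option autoImplicit false
set_option synthInstance.maxHeartbeats 400000
set_option maxHeartbeats 1000000
set_option linter.style.haveILetI false

open ModularCurve IntermediateField AlgebraicCurve HahnSeries Polynomial
open Fermat.Agent.S24.Real

namespace Fermat.Agent.S37x.Norm.H3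

noncomputable section

variable (N ℓ : ℕ) [NeZero N] [NeZero ℓ]


/-- **(C), coprime case.** -/
theorem h3_norm_coprime (hℓ : ℓ.Prime) (hN : ¬ ℓ ∣ N) (y : modularFunctionFieldBar N)
    (hy : y ≠ 0) (hcop : Int.gcd (y : LaurentSeries (AlgebraicClosure ℚ)).order ℓ = 1) :
    letI := algebraAlong (heckeAlphaBar (AlgebraicClosure ℚ) N ℓ)
    ((Algebra.norm (modularFunctionFieldBar N) (heckeBetaBar (AlgebraicClosure ℚ) N ℓ y) :
        modularFunctionFieldBar N) : LaurentSeries (AlgebraicClosure ℚ)) =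
      qExpand (AlgebraicClosure ℚ) ℓ (y : LaurentSeries (AlgebraicClosure ℚ)) *
        h3Dl ℓ (y : LaurentSeries (AlgebraicClosure ℚ)) := by
  letI := algebraAlong (heckeAlphaBar (AlgebraicClosure ℚ) N ℓ)
  have hfr : Module.finrank (modularFunctionFieldBar N) (modularFunctionFieldBar (N * ℓ)) = ℓ + 1 :=
    h3_finrank_alpha N ℓ hℓ hN
  haveI : Module.Finite (modularFunctionFieldBar N) (modularFunctionFieldBar (N * ℓ)) :=
    Module.finite_of_finrank_pos (by rw [hfr]; exact Nat.succ_pos _)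
  set x := heckeBetaBar (AlgebraicClosure ℚ) N ℓ y with hx
  set P := (Algebra.lmul (modularFunctionFieldBar N) (modularFunctionFieldBar (N * ℓ)) x).charpoly
    with hP
  have hPmonic : P.Monic := LinearMap.charpoly_monic _
  have hPdeg : P.natDegree = ℓ + 1 := by
    rw [hP, LinearMap.charpoly_natDegree, hfr]
  have hPx : aeval x P = 0 := by
    have h1 := LinearMap.aeval_self_charpoly
      (Algebra.lmul (modularFunctionFieldBar N) (modularFunctionFieldBar (N * ℓ)) x)
    rw [Polynomial.aeval_algHom_apply] at h1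
    exact Algebra.lmul_injective (by rw [h1, map_zero])
  -- transport to Laurent series
  set ι : modularFunctionFieldBar N →+* LaurentSeries (AlgebraicClosure ℚ) :=
    algebraMap (modularFunctionFieldBar N) (LaurentSeries (AlgebraicClosure ℚ)) with hι
  set ι' : modularFunctionFieldBar (N * ℓ) →+* LaurentSeries (AlgebraicClosure ℚ) :=
    algebraMap (modularFunctionFieldBar (N * ℓ)) (LaurentSeries (AlgebraicClosure ℚ)) with hι'
  have hcomp : ι'.comp (algebraMap (modularFunctionFieldBar N) (modularFunctionFieldBar (N * ℓ)))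
      = ι := by
    ext c
    rfl
  set H : (LaurentSeries (AlgebraicClosure ℚ))[X] := P.map ι with hH
  have hHmonic : H.Monic := hPmonic.map ι
  have hHdeg : H.natDegree = ℓ + 1 := by
    rw [hH, hPmonic.natDegree_map, hPdeg]
  have hHcoeff : ∀ i, H.coeff i ∈ FK (AlgebraicClosure ℚ) N := fun i => by
    rw [hH, coeff_map]
    exact (P.coeff i).2
  have hHa : H.eval (qExpand (AlgebraicClosure ℚ) ℓ (y : LaurentSeries (AlgebraicClosure ℚ))) = 0 := by
    have h1 := congrArg ι' hPx
    rw [aeval_def, hom_eval₂, hcomp, map_zero] at h1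
    rw [hH, eval_map]
    exact h1
  have hcop' : Nat.Coprime ℓ N := (Nat.Prime.coprime_iff_not_dvd hℓ).mpr hN
  have hHs := h3_swap h3_emb N ℓ hcop' H hHcoeff (y : LaurentSeries (AlgebraicClosure ℚ)) y.2 hHa
  have hy0 : (y : LaurentSeries (AlgebraicClosure ℚ)) ≠ 0 := fun h => hy (Subtype.ext h)
  have key := h3_coeff_zero_of_roots ℓ hℓ.two_le hy0 hcop hHmonic hHdeg hHs _ hHa
  rw [← key, Algebra.norm_apply, LinearMap.det_eq_sign_charpoly_coeff, hfr, hH, coeff_map]
  rfl


/-- **(C)** the norm of `β y` along `α`, for every `y`. -/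
theorem h3_norm_beta (hℓ : ℓ.Prime) (hN : ¬ ℓ ∣ N) (y : modularFunctionFieldBar N) :
    letI := algebraAlong (heckeAlphaBar (AlgebraicClosure ℚ) N ℓ)
    ((Algebra.norm (modularFunctionFieldBar N) (heckeBetaBar (AlgebraicClosure ℚ) N ℓ y) :
        modularFunctionFieldBar N) : LaurentSeries (AlgebraicClosure ℚ)) =
      qExpand (AlgebraicClosure ℚ) ℓ (y : LaurentSeries (AlgebraicClosure ℚ)) *
        h3Dl ℓ (y : LaurentSeries (AlgebraicClosure ℚ)) := by
  letI := algebraAlong (heckeAlphaBar (AlgebraicClosure ℚ) N ℓ)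
  have hfr : Module.finrank (modularFunctionFieldBar N) (modularFunctionFieldBar (N * ℓ)) = ℓ + 1 :=
    h3_finrank_alpha N ℓ hℓ hN
  haveI : Module.Finite (modularFunctionFieldBar N) (modularFunctionFieldBar (N * ℓ)) :=
    Module.finite_of_finrank_pos (by rw [hfr]; exact Nat.succ_pos _)
  have hgcd : ∀ n : ℤ, ¬ (ℓ : ℤ) ∣ n → Int.gcd n ℓ = 1 := by
    intro n hn
    rw [Int.gcd_comm]
    exact Int.isCoprime_iff_gcd_eq_one.mp
      ((Nat.prime_iff_prime_int.mp hℓ).coprime_iff_not_dvd.mpr hn)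
  by_cases hy : y = 0
  · subst hy
    rw [map_zero, Algebra.norm_zero]
    simp
  by_cases hd : (ℓ : ℤ) ∣ (y : LaurentSeries (AlgebraicClosure ℚ)).order
  · -- multiply by `j`
    have hy0 : (y : LaurentSeries (AlgebraicClosure ℚ)) ≠ 0 := fun h => hy (Subtype.ext h)
    have hj0 : (Asm.jL N : modularFunctionFieldBar N) ≠ 0 := by
      intro h
      have := congrArg (fun z : modularFunctionFieldBar N =>
        (z : LaurentSeries (AlgebraicClosure ℚ))) h
      exact Fermat.Agent.S28.Deg.H8.jqModC_ne_zero (AlgebraicClosure ℚ) this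
    have hjord : ((Asm.jL N : modularFunctionFieldBar N) :
        LaurentSeries (AlgebraicClosure ℚ)).order = -1 :=
      Fermat.Agent.S28.Deg.H8.order_jqModC (AlgebraicClosure ℚ)
    have h1 := h3_norm_coprime N ℓ hℓ hN (Asm.jL N) hj0 (by
      rw [hjord]
      exact hgcd _ (by
        rw [Int.dvd_neg]
        intro h
        have := Int.le_of_dvd one_pos h
        have h2 : (2 : ℤ) ≤ ℓ := by exact_mod_cast hℓ.two_le
        omega))
    have hyj0 : y * Asm.jL N ≠ 0 := mul_ne_zero hy hj0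
    have h2 := h3_norm_coprime N ℓ hℓ hN (y * Asm.jL N) hyj0 (by
      rw [MulMemClass.coe_mul, HahnSeries.order_mul hy0 (fun h => hj0 (Subtype.ext h)), hjord]
      refine hgcd _ (fun h => ?_)
      have h3 := (Int.dvd_sub hd h)
      rw [show (y : LaurentSeries (AlgebraicClosure ℚ)).order -
        ((y : LaurentSeries (AlgebraicClosure ℚ)).order + -1) = 1 by ring] at h3
      have := Int.le_of_dvd one_pos h3
      have h2 : (2 : ℤ) ≤ ℓ := by exact_mod_cast hℓ.two_le
      omega)
    rw [map_mul, map_mul, MulMemClass.coe_mul, MulMemClass.coe_mul, map_mul, h3Dl_mul, h1] at h2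
    have hne : qExpand (AlgebraicClosure ℚ) ℓ
        ((Asm.jL N : modularFunctionFieldBar N) : LaurentSeries (AlgebraicClosure ℚ)) *
        h3Dl ℓ ((Asm.jL N : modularFunctionFieldBar N) : LaurentSeries (AlgebraicClosure ℚ)) ≠ 0 := by
      rw [← h1]
      intro h
      have h4 : Algebra.norm (modularFunctionFieldBar N)
          (heckeBetaBar (AlgebraicClosure ℚ) N ℓ (Asm.jL N)) = 0 := Subtype.ext h
      rw [Algebra.norm_eq_zero_iff] at h4
      exact hj0 ((map_eq_zero _).mp h4)
    apply mul_right_cancel₀ hne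
    rw [h2]
    ring
  · exact h3_norm_coprime N ℓ hℓ hN y hy (hgcd _ hd)

/-- **[NORM]** the leaf `StNorm`. -/
theorem stNorm (hℓ : ℓ.Prime) (hN : ¬ ℓ ∣ N) (A : ValuationSubring (AlgebraicClosure ℚ))
    (hA : A.LiesOverPrime ℓ) : Asm.StNorm N ℓ A := by
  intro φ hφ y hy
  haveI : Fact ℓ.Prime := ⟨hℓ⟩
  haveI : CharP (IsLocalRing.ResidueField A) ℓ :=
    Fermat.Agent.S18x.Dict.H23.h23_charP_residueField' hℓ A hA
  have hnorm := h3_norm_beta N ℓ hℓ hN ⟨coeffMap A.subtype y, hy⟩
  have hY : coeffMap A.subtype (qExpand A ℓ y * h3Dl ℓ y) =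
      qExpand (AlgebraicClosure ℚ) ℓ (coeffMap A.subtype y) * h3Dl ℓ (coeffMap A.subtype y) := by
    rw [map_mul, Fermat.Agent.S24.Real.coeffMap_qExpand, h3Dl_coeffMap]
  refine ⟨qExpand A ℓ y * h3Dl ℓ y, ?_, ?_, ?_⟩
  · rw [hY]
    have := hnorm
    simp only at this
    rw [← this]
    exact Subtype.mem _
  · apply Subtype.ext
    exact hnorm.trans hY.symm
  · rw [map_mul, Fermat.Agent.S24.Real.coeffMap_qExpand, ← h3Dl_coeffMap, h3Dl_char]
    have hφ' : φ = frobenius (IsLocalRing.ResidueField A) ℓ := by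
      ext x
      rw [hφ, frobenius_def]
    rw [hφ']

end

end Fermat.Agent.S37x.Norm.H3
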